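import Mathlib
import Fermat.Agent.S41.Spec.HK
import Fermat.Agent.S41.H281.Eis

/-!
# Row S41, block IK (helper161): Ihara's lemma without amalgam / congruence subgroup property

Frozen statements of the block; mathematics in `coord/S41-IK.md` (origin/helper161).

For a pair `(φ₁, φ₂)` of characters of `Γ₀(N)` with `r₁ φ₁ + r₂ φ₂ = 0` (i.e. in the kernel of
`i : X_N² → X_{Nq}`), with values in an abelian group killed by an odd prime `p`, and `φ₁ ≠ 0`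
vanishing on `U = [[1,1],[0,1]]`, there is `γ₀ ∈ Γ₀(N)` with `φ₁ γ₀ ≠ 0` such that
`(T_l φ₁)(γ₀) = 2 φ₁(γ₀)` for every prime `l ∤ N q` with `l ≡ 1 mod c` (`c = (γ₀)₁₀`) for which some
power `q^{2k} ≡ 1 mod c` has order divisible by `p` in `(ℤ/l)ˣ`.
-/

set_option autoImplicit false

namespace Fermat.Agent.S41.H161

open CongruenceSubgroup Matrix.SpecialLinearGroup
open Fermat.Agent.S29.H642 Fermat.Agent.S41.Spec
open scoped MatrixGroups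

universe u

/-- The unipotent `U = [[1, 1], [0, 1]]` as an element of `Γ₀(N)`. -/
def upU (N : ℕ) : Gamma0 N :=
  ⟨⟨!![1, 1; 0, 1], by simp [Matrix.det_fin_two_of]⟩, by rw [Gamma0_mem]; simp⟩

/-- (IK-1, SWAP) the kernel of `r₁ + r₂` is stable under exchanging the two components. -/
def SwapStatement : Prop :=
  ∀ (N q : ℕ), q.Prime → ¬ q ∣ N → ∀ (A : Type u) [AddCommGroup A]
    (φ₁ φ₂ : Additive (Gamma0 N) →+ A),
    r₁ N q φ₁ + r₂ N q φ₂ = 0 → r₁ N q φ₂ + r₂ N q φ₁ = 0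

/-- (IK-8, KUM) a sufficient condition for `p ∣ ord_l(q^M)`. -/
def KumStatement : Prop :=
  ∀ (l p q M e : ℕ), l.Prime → p.Prime → l ≡ 1 [MOD p ^ (e + 1)] → ¬ p ^ (e + 1) ∣ M →
    (¬ ∃ x : ZMod l, x ^ p = (q : ZMod l)) → p ∣ orderOf ((q : ZMod l) ^ M)

/-- (IK) the main statement of the block. -/
def IKStatement : Prop :=
  ∀ (N q p : ℕ) [Fact q.Prime] [Fact p.Prime], p ≠ 2 → ¬ q ∣ N → 0 < N →
    ∀ (A : Type u) [AddCommGroup A], (∀ a : A, p • a = 0) →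
    ∀ (φ₁ φ₂ : Additive (Gamma0 N) →+ A), r₁ N q φ₁ + r₂ N q φ₂ = 0 →
      φ₁ (Additive.ofMul (upU N)) = 0 → φ₁ ≠ 0 →
    ∃ γ₀ : Gamma0 N, φ₁ (Additive.ofMul γ₀) ≠ 0 ∧ (γ₀ : SL(2, ℤ)) 1 0 ≠ 0 ∧
      ¬ (q : ℤ) ∣ (γ₀ : SL(2, ℤ)) 1 0 ∧
      ∀ (l : ℕ) [Fact l.Prime] (hl : ¬ l ∣ N), l ≠ q →
        (l : ℤ) ≡ 1 [ZMOD (γ₀ : SL(2, ℤ)) 1 0] →
        (∃ k : ℕ, (q : ℤ) ^ (2 * k) ≡ 1 [ZMOD (γ₀ : SL(2, ℤ)) 1 0] ∧
          p ∣ orderOf ((q : ZMod l) ^ (2 * k))) →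
        heckeTransfer hl φ₁ (Additive.ofMul γ₀) = (2 : ℕ) • φ₁ (Additive.ofMul γ₀)

end Fermat.Agent.S41.H161
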