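import Mathlib
import Fermat.Agent.S41.H161.IK.Spec

/-!
# S41 / IK (helper161): KUM

If `l ≡ 1 mod p^(e+1)`, `p^(e+1) ∤ M` and `q` is not a `p`-th power in `ℤ/l`, then
`p ∣ ord_l(q^M)`.
-/

set_option autoImplicit false

namespace Fermat.Agent.S41.H161

theorem kum : KumStatement := by
  intro l p q M e hl hp hl1 hM hq
  have : Fact l.Prime := ⟨hl⟩
  -- `q ≠ 0` in `ZMod l`
  have hq0 : ((q : ℕ) : ZMod l) ≠ 0 := by
    intro h
    exact hq ⟨0, by rw [h, zero_pow hp.ne_zero]⟩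
  let qu : (ZMod l)ˣ := Units.mk0 (q : ZMod l) hq0
  obtain ⟨g, hg⟩ := IsCyclic.exists_monoid_generator (α := (ZMod l)ˣ)
  have hord : orderOf g = l - 1 := by
    rw [orderOf_eq_card_of_forall_mem_powers hg, Nat.card_eq_fintype_card, ZMod.card_units]
  obtain ⟨s, hs⟩ := (Submonoid.mem_powers_iff _ _).mp (hg qu)
  -- p^(e+1) ∣ l - 1
  have hdiv : p ^ (e + 1) ∣ l - 1 :=
    (Nat.modEq_iff_dvd' hl.one_lt.le).mp hl1.symm
  by_contra hpn
  set n := orderOf ((q : ZMod l) ^ M) with hn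
  have hn' : orderOf (qu ^ M) = n := by
    rw [hn, ← orderOf_units]
    simp [qu]
  have h1 : (qu ^ M) ^ n = 1 := by
    rw [← hn']; exact pow_orderOf_eq_one _
  rw [← hs, ← pow_mul, ← pow_mul] at h1
  have h2 : l - 1 ∣ s * M * n := by
    rw [← hord, mul_assoc]; exact orderOf_dvd_iff_pow_eq_one.mpr h1
  have h3 : p ^ (e + 1) ∣ s * M * n := dvd_trans hdiv h2
  have hcopn : (p ^ (e + 1)).Coprime n :=
    Nat.Coprime.pow_left _ ((Nat.Prime.coprime_iff_not_dvd hp).mpr hpn)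
  have h4 : p ^ (e + 1) ∣ s * M := hcopn.dvd_of_dvd_mul_right h3
  have hps : p ∣ s := by
    by_contra hps
    have hcops : (p ^ (e + 1)).Coprime s :=
      Nat.Coprime.pow_left _ ((Nat.Prime.coprime_iff_not_dvd hp).mpr hps)
    exact hM (hcops.dvd_of_dvd_mul_left h4)
  obtain ⟨s', rfl⟩ := hps
  apply hq
  refine ⟨((g ^ s' : (ZMod l)ˣ) : ZMod l), ?_⟩
  have : ((g ^ s') ^ p : (ZMod l)ˣ) = qu := by
    rw [← pow_mul, mul_comm, hs]
  have h5 := congrArg (fun u : (ZMod l)ˣ => (u : ZMod l)) this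
  simpa [qu] using h5

end Fermat.Agent.S41.H161
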