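import Mathlib

/-!
# S41 / IK (helper161): the averaging lemma

`G` a finite commutative group, `v ∈ G` of order `p` (odd prime), `A` an abelian group killed by `p`,
`F : G → A` with `F (v e) = F e + κ`.  Then `∑ e, F e = 0`.
-/

set_option autoImplicit false

namespace Fermat.Agent.S41.H161

/-- **AVG**: a function on a finite commutative group which is shifted by a constant under
multiplication by an element of odd prime order `p` has sum zero in a group killed by `p`. -/
theorem sum_eq_zero_of_shift {G : Type*} [CommGroup G] [Fintype G] {A : Type*} [AddCommGroup A]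
    {p : ℕ} (hp : p.Prime) (hp2 : p ≠ 2) (hA : ∀ a : A, p • a = 0) (v : G) (hv : orderOf v = p)
    (F : G → A) (κ : A) (hF : ∀ e, F (v * e) = F e + κ) : ∑ e, F e = 0 := by
  classical
  have hpow : ∀ (i : ℕ) (e : G), F (v ^ i * e) = F e + i • κ := by
    intro i
    induction i with
    | zero => intro e; simp
    | succ i ih => intro e; rw [pow_succ', mul_assoc, hF, ih, succ_nsmul, add_assoc]
  have hκ : ∑ i ∈ Finset.range p, i • κ = 0 := by
    rw [← Finset.sum_smul, Finset.sum_range_id]
    obtain ⟨m, hm⟩ : 2 ∣ p - 1 := by
      have hodd : Odd p := hp.odd_of_ne_two hp2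
      obtain ⟨k, hk⟩ := hodd
      exact ⟨k, by omega⟩
    have : p * (p - 1) / 2 = m * p := by
      rw [hm, ← mul_assoc, mul_comm p 2, mul_assoc, Nat.mul_div_cancel_left _ (by norm_num : 0 < 2),
        mul_comm]
    rw [this, mul_smul, hA, smul_zero]
  have horbit : ∀ e : G, ∑ i ∈ Finset.range p, F (v ^ i * e) = 0 := by
    intro e
    simp only [hpow, Finset.sum_add_distrib, Finset.sum_const, Finset.card_range, hA, zero_add]
    exact hκ
  have hfin : IsOfFinOrder v := by
    rw [← orderOf_pos_iff, hv]; exact hp.pos
  rw [← Finset.sum_fiberwise (s := Finset.univ)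
    (g := (QuotientGroup.mk : G → G ⧸ Subgroup.zpowers v))]
  refine Finset.sum_eq_zero fun L _ => ?_
  obtain ⟨r, rfl⟩ := QuotientGroup.mk_surjective L
  have hset : (Finset.univ.filter fun e : G => (e : G ⧸ Subgroup.zpowers v) = r) =
      (Finset.range p).image (fun i => v ^ i * r) := by
    ext e
    simp only [Finset.mem_filter, Finset.mem_univ, true_and, Finset.mem_image, Finset.mem_range]
    rw [QuotientGroup.eq, ← Subgroup.inv_mem_iff, mul_inv_rev, inv_inv,
      hfin.mem_zpowers_iff_mem_range_orderOf, hv]
    simp only [Finset.mem_image, Finset.mem_range]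
    constructor
    · rintro ⟨i, hi, h⟩
      exact ⟨i, hi, by rw [h]; simp⟩
    · rintro ⟨i, hi, h⟩
      exact ⟨i, hi, by rw [← h]; simp⟩
  rw [hset, Finset.sum_image]
  · exact horbit r
  · intro i hi j hj hij
    have h1 : v ^ i = v ^ j := mul_right_cancel hij
    have := pow_injOn_Iio_orderOf (x := v)
    rw [hv] at this
    exact this (by simpa using hi) (by simpa using hj) h1

end Fermat.Agent.S41.H161
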