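import Mathlib
import Fermat.Agent.S41.H161.IK.Spec

/-!
# S41 / IK (helper161): elements of `Γ₀(N)` by entries, and the row lemma
-/

set_option autoImplicit false

namespace Fermat.Agent.S41.H161

open CongruenceSubgroup Matrix.SpecialLinearGroup
open Fermat.Agent.S29.H642 Fermat.Agent.S41.Spec
open scoped MatrixGroups

variable {N : ℕ}

/-- The element `[[a, b], [c, d]]` of `Γ₀(N)`. -/
def mk0 (N : ℕ) (a b c d : ℤ) (hdet : a * d - b * c = 1) (hc : (N : ℤ) ∣ c) : Gamma0 N :=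
  ⟨⟨!![a, b; c, d], by rw [Matrix.det_fin_two_of]; exact hdet⟩,
    mem_Gamma0_of_dvd (by simpa using hc)⟩

section entries

variable (a b c d : ℤ) (hdet : a * d - b * c = 1) (hc : (N : ℤ) ∣ c)

@[simp] theorem mk0_00 : ((mk0 N a b c d hdet hc : Gamma0 N) : SL(2, ℤ)) 0 0 = a := rfl
@[simp] theorem mk0_01 : ((mk0 N a b c d hdet hc : Gamma0 N) : SL(2, ℤ)) 0 1 = b := rfl
@[simp] theorem mk0_10 : ((mk0 N a b c d hdet hc : Gamma0 N) : SL(2, ℤ)) 1 0 = c := rfl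
@[simp] theorem mk0_11 : ((mk0 N a b c d hdet hc : Gamma0 N) : SL(2, ℤ)) 1 1 = d := rfl

end entries

theorem gamma0_ext {γ γ' : Gamma0 N}
    (h00 : (γ : SL(2, ℤ)) 0 0 = (γ' : SL(2, ℤ)) 0 0)
    (h01 : (γ : SL(2, ℤ)) 0 1 = (γ' : SL(2, ℤ)) 0 1)
    (h10 : (γ : SL(2, ℤ)) 1 0 = (γ' : SL(2, ℤ)) 1 0)
    (h11 : (γ : SL(2, ℤ)) 1 1 = (γ' : SL(2, ℤ)) 1 1) : γ = γ' := by
  apply Subtype.ext
  apply Subtype.ext
  ext i j
  fin_cases i <;> fin_cases j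
  · exact h00
  · exact h01
  · exact h10
  · exact h11

theorem det_eq (γ : Gamma0 N) :
    (γ : SL(2, ℤ)) 0 0 * (γ : SL(2, ℤ)) 1 1 - (γ : SL(2, ℤ)) 0 1 * (γ : SL(2, ℤ)) 1 0 = 1 := by
  have h := (γ : SL(2, ℤ)).det_coe
  rw [Matrix.det_fin_two] at h
  exact h

theorem dvd_10 (γ : Gamma0 N) : (N : ℤ) ∣ (γ : SL(2, ℤ)) 1 0 := dvd_of_mem_Gamma0 γ.2

theorem eq_mk0 (γ : Gamma0 N) :
    γ = mk0 N ((γ : SL(2, ℤ)) 0 0) ((γ : SL(2, ℤ)) 0 1) ((γ : SL(2, ℤ)) 1 0) ((γ : SL(2, ℤ)) 1 1)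
      (det_eq γ) (dvd_10 γ) :=
  gamma0_ext rfl rfl rfl rfl

theorem mul_00 (γ γ' : Gamma0 N) : ((γ * γ' : Gamma0 N) : SL(2, ℤ)) 0 0 =
    (γ : SL(2, ℤ)) 0 0 * (γ' : SL(2, ℤ)) 0 0 + (γ : SL(2, ℤ)) 0 1 * (γ' : SL(2, ℤ)) 1 0 := by
  simp [Matrix.mul_apply, Fin.sum_univ_two]

theorem mul_01 (γ γ' : Gamma0 N) : ((γ * γ' : Gamma0 N) : SL(2, ℤ)) 0 1 =
    (γ : SL(2, ℤ)) 0 0 * (γ' : SL(2, ℤ)) 0 1 + (γ : SL(2, ℤ)) 0 1 * (γ' : SL(2, ℤ)) 1 1 := by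
  simp [Matrix.mul_apply, Fin.sum_univ_two]

theorem mul_10 (γ γ' : Gamma0 N) : ((γ * γ' : Gamma0 N) : SL(2, ℤ)) 1 0 =
    (γ : SL(2, ℤ)) 1 0 * (γ' : SL(2, ℤ)) 0 0 + (γ : SL(2, ℤ)) 1 1 * (γ' : SL(2, ℤ)) 1 0 := by
  simp [Matrix.mul_apply, Fin.sum_univ_two]

theorem mul_11 (γ γ' : Gamma0 N) : ((γ * γ' : Gamma0 N) : SL(2, ℤ)) 1 1 =
    (γ : SL(2, ℤ)) 1 0 * (γ' : SL(2, ℤ)) 0 1 + (γ : SL(2, ℤ)) 1 1 * (γ' : SL(2, ℤ)) 1 1 := by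
  simp [Matrix.mul_apply, Fin.sum_univ_two]

/-- Existence of an element of `Γ₀(N)` with prescribed bottom row. -/
theorem exists_row {c d : ℤ} (hcd : IsCoprime c d) (hc : (N : ℤ) ∣ c) :
    ∃ γ : Gamma0 N, (γ : SL(2, ℤ)) 1 0 = c ∧ (γ : SL(2, ℤ)) 1 1 = d := by
  obtain ⟨a, b, hab⟩ := hcd
  exact ⟨mk0 N b (-a) c d (by linear_combination hab) hc, rfl, rfl⟩

theorem isCoprime_row (γ : Gamma0 N) : IsCoprime ((γ : SL(2, ℤ)) 1 0) ((γ : SL(2, ℤ)) 1 1) :=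
  ⟨-(γ : SL(2, ℤ)) 0 1, (γ : SL(2, ℤ)) 0 0, by linear_combination det_eq γ⟩

theorem exists_mk0 (γ : Gamma0 N) :
    ∃ (a b c d : ℤ) (hdet : a * d - b * c = 1) (hc : (N : ℤ) ∣ c), γ = mk0 N a b c d hdet hc :=
  ⟨_, _, _, _, det_eq γ, dvd_10 γ, eq_mk0 γ⟩

section Row

variable {A : Type*} [AddCommGroup A]

/-- `[[1, x], [0, 1]]`. -/
def upZ (N : ℕ) (x : ℤ) : Gamma0 N := mk0 N 1 x 0 1 (by ring) (dvd_zero _)

theorem upZ_add (x y : ℤ) : upZ N (x + y) = upZ N x * upZ N y := by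
  apply gamma0_ext <;>
    simp only [upZ, mul_00, mul_01, mul_10, mul_11, mk0_00, mk0_01, mk0_10, mk0_11] <;> ring

theorem upZ_one : upZ N 1 = upU N := gamma0_ext rfl rfl rfl rfl

theorem upZ_zero : upZ N 0 = 1 := gamma0_ext rfl rfl rfl rfl

theorem apply_upZ (φ : Additive (Gamma0 N) →+ A) (hU : φ (Additive.ofMul (upU N)) = 0) (x : ℤ) :
    φ (Additive.ofMul (upZ N x)) = 0 := by
  let ψ : ℤ →+ A :=
    { toFun := fun x => φ (Additive.ofMul (upZ N x))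
      map_zero' := by simp [upZ_zero]
      map_add' := fun x y => by simp [upZ_add, ofMul_mul] }
  have h : ψ x = x • ψ 1 := by
    have := map_zsmul ψ x (1 : ℤ)
    simpa using this
  have h1 : ψ 1 = 0 := by
    show φ (Additive.ofMul (upZ N 1)) = 0
    rw [upZ_one]; exact hU
  show ψ x = 0
  rw [h, h1, smul_zero]

/-- **ROW**: a character killing `U` depends only on the bottom row `(c, d mod c)`. -/
theorem apply_eq_of_row (φ : Additive (Gamma0 N) →+ A) (hU : φ (Additive.ofMul (upU N)) = 0)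
    (γ γ' : Gamma0 N) (h10 : (γ' : SL(2, ℤ)) 1 0 = (γ : SL(2, ℤ)) 1 0)
    (h11 : (γ' : SL(2, ℤ)) 1 1 ≡ (γ : SL(2, ℤ)) 1 1 [ZMOD (γ : SL(2, ℤ)) 1 0]) :
    φ (Additive.ofMul γ') = φ (Additive.ofMul γ) := by
  obtain ⟨a, b, c, d, hdet, hc, rfl⟩ := exists_mk0 γ
  obtain ⟨a', b', c', d', hdet', hc', rfl⟩ := exists_mk0 γ'
  simp only [mk0_10, mk0_11] at h10 h11
  subst h10
  obtain ⟨s, hs⟩ : ∃ s : ℤ, d' = d + c' * s := by
    obtain ⟨s, hs⟩ := Int.modEq_iff_dvd.mp h11.symm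
    exact ⟨s, by linarith⟩
  subst hs
  have key : mk0 N a' b' c' (d + c' * s) hdet' hc' =
      upZ N (b' * a - a' * (b + a * s)) * (mk0 N a b c' d hdet hc * upZ N s) := by
    apply gamma0_ext <;>
      simp only [upZ, mul_00, mul_01, mul_10, mul_11, mk0_00, mk0_01, mk0_10, mk0_11]
    · linear_combination a * hdet' - a' * hdet
    · linear_combination (a * s + b) * hdet' - b' * hdet
    · ring
    · ring
  rw [key, ofMul_mul, ofMul_mul, map_add, map_add, apply_upZ φ hU, apply_upZ φ hU]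
  simp

end Row

end Fermat.Agent.S41.H161
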