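import Mathlib
import Fermat.Agent.S41.H161.IK.Basic

/-!
# S41 / IK (helper161): bottom rows of the Hecke elements `γ_x`

`α_x γ = γ_x α_{πx}` with `α_j = [[1, j], [0, l]]`, `α_∞ = [[l, 0], [0, 1]]`.  For `γ` with bottom
row `(c, d)`:
* `x = j`, `πx = j'` : `γ_x` has bottom row `(l c, d - c j')`;
* `x = j`, `πx = ∞`  : `(c, l d)`;
* `x = ∞`, `πx = j'` : `(c, d'')` with `d'' l = d - c j'`;
* `x = ∞`, `πx = ∞`  : only if `l ∣ c`.
-/

set_option autoImplicit false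

namespace Fermat.Agent.S41.H161

open CongruenceSubgroup Matrix.SpecialLinearGroup
open Fermat.Agent.S29.H642 Fermat.Agent.S41.Spec Fermat.Agent.S41.H281
open scoped MatrixGroups

variable {N l : ℕ} [Fact l.Prime]

theorem l_ne_zero_int : (l : ℤ) ≠ 0 := by
  exact_mod_cast (Fact.out : l.Prime).ne_zero

theorem hElt_row_coe_coe (hl : ¬ l ∣ N) (γ : Gamma0 N) (j j' : ZMod l)
    (h : hPerm l (γ : SL(2, ℤ)) (j : OnePoint (ZMod l)) = (j' : OnePoint (ZMod l))) :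
    ((hElt hl γ (j : OnePoint (ZMod l)) : Gamma0 N) : SL(2, ℤ)) 1 0 = l * (γ : SL(2, ℤ)) 1 0 ∧
    ((hElt hl γ (j : OnePoint (ZMod l)) : Gamma0 N) : SL(2, ℤ)) 1 1 =
      (γ : SL(2, ℤ)) 1 1 - (γ : SL(2, ℤ)) 1 0 * (j'.val : ℤ) := by
  have hs := hElt_spec_int hl γ (j : OnePoint (ZMod l))
  rw [h] at hs
  have h10 := congrFun (congrFun hs 1) 0
  have h11 := congrFun (congrFun hs 1) 1
  simp only [repInt_coe, Matrix.mul_apply, Fin.sum_univ_two, Matrix.of_apply, Matrix.cons_val',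
    Matrix.cons_val_zero, Matrix.cons_val_one, Matrix.empty_val', Matrix.cons_val_fin_one] at h10 h11
  have e10 : ((hElt hl γ (j : OnePoint (ZMod l)) : Gamma0 N) : SL(2, ℤ)) 1 0 =
      l * (γ : SL(2, ℤ)) 1 0 := by
    linear_combination -h10
  refine ⟨e10, ?_⟩
  have hl0 : (l : ℤ) ≠ 0 := l_ne_zero_int
  apply mul_left_cancel₀ hl0
  rw [e10] at h11
  linear_combination -h11

theorem hElt_row_coe_infty (hl : ¬ l ∣ N) (γ : Gamma0 N) (j : ZMod l)
    (h : hPerm l (γ : SL(2, ℤ)) (j : OnePoint (ZMod l)) = OnePoint.infty) :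
    ((hElt hl γ (j : OnePoint (ZMod l)) : Gamma0 N) : SL(2, ℤ)) 1 0 = (γ : SL(2, ℤ)) 1 0 ∧
    ((hElt hl γ (j : OnePoint (ZMod l)) : Gamma0 N) : SL(2, ℤ)) 1 1 =
      l * (γ : SL(2, ℤ)) 1 1 := by
  have hs := hElt_spec_int hl γ (j : OnePoint (ZMod l))
  rw [h] at hs
  have h10 := congrFun (congrFun hs 1) 0
  have h11 := congrFun (congrFun hs 1) 1
  simp only [repInt_coe, repInt_infty, Matrix.mul_apply, Fin.sum_univ_two, Matrix.of_apply,
    Matrix.cons_val', Matrix.cons_val_zero, Matrix.cons_val_one, Matrix.empty_val',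
    Matrix.cons_val_fin_one] at h10 h11
  have hl0 : (l : ℤ) ≠ 0 := l_ne_zero_int
  refine ⟨?_, ?_⟩
  · apply mul_left_cancel₀ hl0
    linear_combination -h10
  · linear_combination -h11

theorem hElt_row_infty_coe (hl : ¬ l ∣ N) (γ : Gamma0 N) (j' : ZMod l)
    (h : hPerm l (γ : SL(2, ℤ)) OnePoint.infty = (j' : OnePoint (ZMod l))) :
    ((hElt hl γ OnePoint.infty : Gamma0 N) : SL(2, ℤ)) 1 0 = (γ : SL(2, ℤ)) 1 0 ∧
    ((hElt hl γ OnePoint.infty : Gamma0 N) : SL(2, ℤ)) 1 1 * l =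
      (γ : SL(2, ℤ)) 1 1 - (γ : SL(2, ℤ)) 1 0 * (j'.val : ℤ) := by
  have hs := hElt_spec_int hl γ OnePoint.infty
  rw [h] at hs
  have h10 := congrFun (congrFun hs 1) 0
  have h11 := congrFun (congrFun hs 1) 1
  simp only [repInt_coe, repInt_infty, Matrix.mul_apply, Fin.sum_univ_two, Matrix.of_apply,
    Matrix.cons_val', Matrix.cons_val_zero, Matrix.cons_val_one, Matrix.empty_val',
    Matrix.cons_val_fin_one] at h10 h11
  have e10 : ((hElt hl γ OnePoint.infty : Gamma0 N) : SL(2, ℤ)) 1 0 = (γ : SL(2, ℤ)) 1 0 := by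
    linear_combination -h10
  refine ⟨e10, ?_⟩
  rw [e10] at h11
  linear_combination -h11

theorem hPerm_infty_ne_infty (hl : ¬ l ∣ N) (γ : Gamma0 N)
    (hlc : ¬ (l : ℤ) ∣ (γ : SL(2, ℤ)) 1 0) :
    hPerm l (γ : SL(2, ℤ)) OnePoint.infty ≠ OnePoint.infty := by
  intro h
  have hs := hElt_spec_int hl γ OnePoint.infty
  rw [h] at hs
  have h10 := congrFun (congrFun hs 1) 0
  simp only [repInt_infty, Matrix.mul_apply, Fin.sum_univ_two, Matrix.of_apply,
    Matrix.cons_val', Matrix.cons_val_zero, Matrix.cons_val_one, Matrix.empty_val',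
    Matrix.cons_val_fin_one] at h10
  apply hlc
  exact ⟨((hElt hl γ OnePoint.infty : Gamma0 N) : SL(2, ℤ)) 1 0, by linear_combination h10⟩

end Fermat.Agent.S41.H161
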