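import Mathlib
import Fermat.Agent.S41.H161.IK.Basic

/-!
# S41 / IK (helper161): SWAP and (T)

* `swap` : `r₁ φ₁ + r₂ φ₂ = 0 → r₁ φ₂ + r₂ φ₁ = 0` (Atkin–Lehner at `q`);
* `apply_eq_of_sq` : (T) `φ₁ [[a, b], [q² c, d]] = φ₁ [[a, q² b], [c, d]]`.
-/

set_option autoImplicit false

namespace Fermat.Agent.S41.H161

open CongruenceSubgroup Matrix.SpecialLinearGroup
open Fermat.Agent.S29.H642 Fermat.Agent.S41.Spec
open scoped MatrixGroups

variable {N q : ℕ} {A : Type*} [AddCommGroup A]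

theorem ker_apply {φ₁ φ₂ : Additive (Gamma0 N) →+ A} (hker : r₁ N q φ₁ + r₂ N q φ₂ = 0)
    (γ : Gamma0 (N * q)) :
    φ₁ (Additive.ofMul (incl N q γ)) + φ₂ (Additive.ofMul (conjDelta N q γ)) = 0 := by
  have := DFunLike.congr_fun hker (Additive.ofMul γ)
  simpa [r₁, r₂] using this

theorem incl_apply (γ : Gamma0 (N * q)) (i j : Fin 2) :
    ((incl N q γ : Gamma0 N) : SL(2, ℤ)) i j = (γ : SL(2, ℤ)) i j := rfl

theorem conjDelta_00 (γ : Gamma0 (N * q)) :
    ((conjDelta N q γ : Gamma0 N) : SL(2, ℤ)) 0 0 = (γ : SL(2, ℤ)) 0 0 := rfl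

theorem conjDelta_01 (γ : Gamma0 (N * q)) :
    ((conjDelta N q γ : Gamma0 N) : SL(2, ℤ)) 0 1 = q * (γ : SL(2, ℤ)) 0 1 := rfl

theorem conjDelta_10 (γ : Gamma0 (N * q)) :
    ((conjDelta N q γ : Gamma0 N) : SL(2, ℤ)) 1 0 = (γ : SL(2, ℤ)) 1 0 / q := rfl

theorem conjDelta_11 (γ : Gamma0 (N * q)) :
    ((conjDelta N q γ : Gamma0 N) : SL(2, ℤ)) 1 1 = (γ : SL(2, ℤ)) 1 1 := rfl

/-- Values of a character on a conjugate. -/
theorem apply_conj (φ : Additive (Gamma0 N) →+ A) (g h x : Gamma0 N) (hgh : h * g = 1) :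
    φ (Additive.ofMul (h * x * g)) = φ (Additive.ofMul x) := by
  have h1 : φ (Additive.ofMul h) + φ (Additive.ofMul g) = 0 := by
    rw [← map_add, ← ofMul_mul, hgh]; simp
  rw [ofMul_mul, ofMul_mul, map_add, map_add]
  rw [add_comm (φ (Additive.ofMul h)), add_assoc, add_comm (φ (Additive.ofMul h)), ← add_assoc]
  rw [add_assoc, add_comm (φ (Additive.ofMul g)), h1, add_zero]

/-- The element of `Γ₀(N q)` with entries `a, b, q c, d` (`N ∣ c`). -/
def mkq (N q : ℕ) (a b c d : ℤ) (hdet : a * d - b * (q * c) = 1) (hc : (N : ℤ) ∣ c) :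
    Gamma0 (N * q) :=
  mk0 (N * q) a b (q * c) d hdet (by
    obtain ⟨k, rfl⟩ := hc
    exact ⟨k, by push_cast; ring⟩)

theorem incl_mkq (a b c d : ℤ) (hdet : a * d - b * (q * c) = 1) (hc : (N : ℤ) ∣ c) :
    incl N q (mkq N q a b c d hdet hc) =
      mk0 N a b (q * c) d hdet (Dvd.dvd.mul_left hc _) :=
  gamma0_ext rfl rfl rfl rfl

theorem conjDelta_mkq (hq : q ≠ 0) (a b c d : ℤ) (hdet : a * d - b * (q * c) = 1)
    (hc : (N : ℤ) ∣ c) :
    conjDelta N q (mkq N q a b c d hdet hc) =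
      mk0 N a (q * b) c d (by linear_combination hdet) hc := by
  apply gamma0_ext
  · rfl
  · rfl
  · rw [conjDelta_10]
    simp only [mkq, mk0_10]
    exact Int.mul_ediv_cancel_left _ (by exact_mod_cast hq)
  · rfl

theorem exists_mkq (_hq : q ≠ 0) (γ : Gamma0 (N * q)) :
    ∃ (a b c d : ℤ) (hdet : a * d - b * (q * c) = 1) (hc : (N : ℤ) ∣ c),
      γ = mkq N q a b c d hdet hc := by
  obtain ⟨k, hk⟩ := dvd_10 γ
  have hk' : (γ : SL(2, ℤ)) 1 0 = q * (N * k) := by rw [hk]; push_cast; ring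
  have hdet := det_eq γ
  rw [hk'] at hdet
  exact ⟨_, _, N * k, _, hdet, Dvd.intro _ rfl, gamma0_ext rfl rfl hk' rfl⟩

/-- **SWAP**. -/
theorem swap_apply (hq : q.Prime) (hqN : ¬ q ∣ N) {φ₁ φ₂ : Additive (Gamma0 N) →+ A}
    (hker : r₁ N q φ₁ + r₂ N q φ₂ = 0) (η : Gamma0 (N * q)) :
    φ₂ (Additive.ofMul (incl N q η)) + φ₁ (Additive.ofMul (conjDelta N q η)) = 0 := by
  have hq0 : q ≠ 0 := hq.ne_zero
  obtain ⟨a, b, c, d, hdet, hc, rfl⟩ := exists_mkq hq0 η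
  -- Bezout
  have hcop : IsCoprime (q : ℤ) (N : ℤ) := by
    rw [Int.isCoprime_iff_gcd_eq_one, Int.gcd_natCast_natCast]
    exact (Nat.Prime.coprime_iff_not_dvd hq).mpr hqN
  obtain ⟨u, v, huv⟩ := hcop
  -- huv : u * q + v * N = 1
  obtain ⟨c₁, rfl⟩ := hc
  -- the Atkin–Lehner companions
  let g3 : Gamma0 N := mk0 N q (-v) N u (by linear_combination huv) (dvd_refl _)
  let g3i : Gamma0 N := mk0 N u v (-N) q (by linear_combination huv) (Dvd.dvd.neg_right (dvd_refl _))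
  let g2 : Gamma0 N := mk0 N 1 (-v) N (q * u) (by linear_combination huv) (dvd_refl _)
  let g2i : Gamma0 N := mk0 N (q * u) v (-N) 1 (by linear_combination huv)
    (Dvd.dvd.neg_right (dvd_refl _))
  have h3 : g3i * g3 = 1 := by
    apply gamma0_ext <;>
      simp only [g3, g3i, mul_00, mul_01, mul_10, mul_11, mk0_00, mk0_01, mk0_10, mk0_11]
    · show _ = (1 : ℤ); linear_combination huv
    · show _ = (0 : ℤ); ring
    · show _ = (0 : ℤ); ring
    · show _ = (1 : ℤ); linear_combination huv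
  have h2 : g2i * g2 = 1 := by
    apply gamma0_ext <;>
      simp only [g2, g2i, mul_00, mul_01, mul_10, mul_11, mk0_00, mk0_01, mk0_10, mk0_11]
    · show _ = (1 : ℤ); linear_combination huv
    · show _ = (0 : ℤ); ring
    · show _ = (0 : ℤ); ring
    · show _ = (1 : ℤ); linear_combination huv
  set μ : Gamma0 N := conjDelta N q (mkq N q a b (N * c₁) d hdet (Dvd.intro _ rfl)) with hμ
  set ι : Gamma0 N := incl N q (mkq N q a b (N * c₁) d hdet (Dvd.intro _ rfl)) with hι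
  have hμe : μ = mk0 N a (q * b) (N * c₁) d (by linear_combination hdet) (Dvd.intro _ rfl) :=
    conjDelta_mkq hq0 _ _ _ _ _ _
  have hιe : ι = mk0 N a b (q * (N * c₁)) d hdet (Dvd.dvd.mul_left (Dvd.intro _ rfl) _) :=
    incl_mkq _ _ _ _ _ _
  -- γ = g3i μ g3, an element of Γ₀(N q)
  have hdetγ : (u * a * q + v * (N * c₁) * q + (u * (q * b) + v * d) * N) *
      (-(-N * a + q * (N * c₁)) * v + (-N * (q * b) + q * d) * u) -
      (-(u * a + v * (N * c₁)) * v + (u * (q * b) + v * d) * u) *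
        (q * (N * (-a + q * c₁ - N * b + d))) = 1 := by
    have h1 := det_eq (g3i * μ * g3)
    rw [hμe] at h1
    simp only [g3, g3i, mul_00, mul_01, mul_10, mul_11, mk0_00, mk0_01, mk0_10, mk0_11] at h1
    linear_combination h1
  let γ : Gamma0 (N * q) := mkq N q
    (u * a * q + v * (N * c₁) * q + (u * (q * b) + v * d) * N)
    (-(u * a + v * (N * c₁)) * v + (u * (q * b) + v * d) * u)
    (N * (-a + q * c₁ - N * b + d))
    (-(-N * a + q * (N * c₁)) * v + (-N * (q * b) + q * d) * u) hdetγ (Dvd.intro _ rfl)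
  have e1 : incl N q γ = g3i * μ * g3 := by
    rw [hμe]
    apply gamma0_ext <;>
      simp only [γ, incl_mkq, g3, g3i, mul_00, mul_01, mul_10, mul_11, mk0_00, mk0_01, mk0_10,
        mk0_11] <;> ring
  have e2 : conjDelta N q γ = g2i * ι * g2 := by
    rw [hιe]
    apply gamma0_ext <;>
      simp only [γ, conjDelta_mkq hq0, g2, g2i, mul_00, mul_01, mul_10, mul_11, mk0_00, mk0_01,
        mk0_10, mk0_11] <;> ring
  have hR := ker_apply hker γ
  rw [e1, e2, apply_conj φ₁ g3 g3i μ h3, apply_conj φ₂ g2 g2i ι h2] at hR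
  rw [add_comm]
  exact hR

theorem swap (hq : q.Prime) (hqN : ¬ q ∣ N) {φ₁ φ₂ : Additive (Gamma0 N) →+ A}
    (hker : r₁ N q φ₁ + r₂ N q φ₂ = 0) : r₁ N q φ₂ + r₂ N q φ₁ = 0 := by
  refine AddMonoidHom.ext fun γ' => ?_
  obtain ⟨γ, rfl⟩ : ∃ γ : Gamma0 (N * q), Additive.ofMul γ = γ' := ⟨Additive.toMul γ', rfl⟩
  have := swap_apply hq hqN hker γ
  simpa [r₁, r₂] using this

/-- **(T)**: for `(φ₁, φ₂)` in the kernel, `φ₁ [[a, b], [q² c, d]] = φ₁ [[a, q² b], [c, d]]`. -/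
theorem apply_eq_of_sq (hq : q.Prime) (hqN : ¬ q ∣ N) {φ₁ φ₂ : Additive (Gamma0 N) →+ A}
    (hker : r₁ N q φ₁ + r₂ N q φ₂ = 0) (a b c d : ℤ) (hc : (N : ℤ) ∣ c)
    (hdet : a * d - b * (q * (q * c)) = 1) :
    φ₁ (Additive.ofMul (mk0 N a b (q * (q * c)) d hdet
        (Dvd.dvd.mul_left (Dvd.dvd.mul_left hc _) _))) =
      φ₁ (Additive.ofMul (mk0 N a (q * (q * b)) c d (by linear_combination hdet) hc)) := by
  have hq0 : q ≠ 0 := hq.ne_zero
  -- γ ∈ Γ₀(N q) with entries a, b, q (q c), d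
  have hR := ker_apply hker (mkq N q a b (q * c) d hdet (Dvd.dvd.mul_left hc _))
  rw [incl_mkq, conjDelta_mkq hq0] at hR
  -- μ ∈ Γ₀(N q) with entries a, q b, q c, d
  have hR' := swap_apply hq hqN hker (mkq N q a (q * b) c d (by linear_combination hdet) hc)
  rw [incl_mkq, conjDelta_mkq hq0] at hR'
  have e : φ₁ (Additive.ofMul (mk0 N a b (q * (q * c)) d hdet
      (Dvd.dvd.mul_left (Dvd.dvd.mul_left hc _) _))) =
      -φ₂ (Additive.ofMul (mk0 N a (q * b) (q * c) d (by linear_combination hdet)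
        (Dvd.dvd.mul_left hc _))) := eq_neg_of_add_eq_zero_left hR
  rw [e]
  exact (eq_neg_of_add_eq_zero_left hR').symm ▸ (neg_neg _)

end Fermat.Agent.S41.H161
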