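import Mathlib
import Fermat.Agent.S41.H161.IK.Swap

/-!
# S41 / IK (helper161): unit symmetry

For `(φ₁, φ₂)` in the kernel of `r₁ + r₂` with `φ₁ U = 0` there is a constant `κ` such that
`φ₁ γ' = φ₁ γ + k • κ` whenever `γ, γ'` have the same lower-left entry `c`, `q ∤ c`, and
`γ' 1 1 ≡ q ^ (2 k) * γ 1 1 mod c`.
-/

set_option autoImplicit false

namespace Fermat.Agent.S41.H161

open CongruenceSubgroup Matrix.SpecialLinearGroup
open Fermat.Agent.S29.H642 Fermat.Agent.S41.Spec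
open scoped MatrixGroups

variable {N q : ℕ} {A : Type*} [AddCommGroup A]

theorem isCoprime_of_prime_not_dvd (hq : q.Prime) {c : ℤ} (hc : ¬ (q : ℤ) ∣ c) :
    IsCoprime c (q : ℤ) := by
  have hq' : Prime (q : ℤ) := Nat.prime_iff_prime_int.mp hq
  exact (Int.isCoprime_iff_gcd_eq_one.mpr
    (by
      rw [Int.gcd_comm]
      exact Int.isCoprime_iff_gcd_eq_one.mp ((Prime.coprime_iff_not_dvd hq').mpr hc)))

/-- **US**, one step. -/
theorem unit_sym (hq : q.Prime) (hqN : ¬ q ∣ N) {φ₁ φ₂ : Additive (Gamma0 N) →+ A}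
    (hker : r₁ N q φ₁ + r₂ N q φ₂ = 0) (hU : φ₁ (Additive.ofMul (upU N)) = 0) :
    ∃ κ : A, ∀ γ γ' : Gamma0 N, (γ' : SL(2, ℤ)) 1 0 = (γ : SL(2, ℤ)) 1 0 →
      ¬ (q : ℤ) ∣ (γ : SL(2, ℤ)) 1 0 →
      (γ' : SL(2, ℤ)) 1 1 ≡ (q : ℤ) ^ 2 * (γ : SL(2, ℤ)) 1 1 [ZMOD (γ : SL(2, ℤ)) 1 0] →
      φ₁ (Additive.ofMul γ') = φ₁ (Additive.ofMul γ) + κ := by
  -- Bezout for q² and N
  have hcop : IsCoprime ((q : ℤ) * q) (N : ℤ) := by
    have h1 : IsCoprime (q : ℤ) (N : ℤ) := by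
      rw [Int.isCoprime_iff_gcd_eq_one, Int.gcd_natCast_natCast]
      exact (Nat.Prime.coprime_iff_not_dvd hq).mpr hqN
    exact h1.mul_left h1
  obtain ⟨u, v, huv⟩ := hcop
  -- huv : u * (q * q) + v * N = 1
  let w1 : Gamma0 N := mk0 N (q * q) (-v) N u (by linear_combination huv) (dvd_refl _)
  let w1i : Gamma0 N := mk0 N u v (-N) (q * q) (by linear_combination huv)
    (Dvd.dvd.neg_right (dvd_refl _))
  let w1h : Gamma0 N := mk0 N 1 (-v) N (q * q * u) (by linear_combination huv) (dvd_refl _)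
  have hw : w1i * w1 = 1 := by
    apply gamma0_ext <;>
      simp only [w1, w1i, mul_00, mul_01, mul_10, mul_11, mk0_00, mk0_01, mk0_10, mk0_11]
    · show _ = (1 : ℤ); linear_combination huv
    · show _ = (0 : ℤ); ring
    · show _ = (0 : ℤ); ring
    · show _ = (1 : ℤ); linear_combination huv
  have hwφ : φ₁ (Additive.ofMul w1i) = -φ₁ (Additive.ofMul w1) := by
    have : φ₁ (Additive.ofMul w1i) + φ₁ (Additive.ofMul w1) = 0 := by
      rw [← map_add, ← ofMul_mul, hw]; simp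
    exact eq_neg_of_add_eq_zero_left this
  refine ⟨φ₁ (Additive.ofMul w1h) - φ₁ (Additive.ofMul w1), ?_⟩
  intro γ γ' h10 hqc h11
  obtain ⟨a, b, c, d, hdet, hc, rfl⟩ := exists_mk0 γ
  simp only [mk0_10, mk0_11] at h10 hqc h11
  -- make `a ≡ 0 mod q²`
  have hcq : IsCoprime c ((q : ℤ) * q) := by
    have h1 := isCoprime_of_prime_not_dvd hq hqc
    exact h1.mul_right h1
  obtain ⟨m, n, hmn⟩ := hcq
  -- hmn : m * c + n * (q * q) = 1
  -- s = - a m,  a + s c = q² (a n) =: q² t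
  set s : ℤ := -(a * m) with hs
  set t : ℤ := a * n with ht
  have hat : a + s * c = q * (q * t) := by
    rw [hs, ht]; linear_combination (-a) * hmn
  set b₀ : ℤ := b + s * d with hb₀
  have hdet₀ : q * (q * t) * d - b₀ * c = 1 := by
    rw [← hat, hb₀]; linear_combination hdet
  -- γ₀ = upZ s * γ
  have hγ₀ : upZ N s * mk0 N a b c d hdet hc = mk0 N (q * (q * t)) b₀ c d hdet₀ hc := by
    apply gamma0_ext <;>
      simp only [upZ, mul_00, mul_01, mul_10, mul_11, mk0_00, mk0_01, mk0_10, mk0_11]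
    · rw [← hat]; ring
    · rw [hb₀]; ring
    · ring
    · ring
  have hφ₀ : φ₁ (Additive.ofMul (mk0 N (q * (q * t)) b₀ c d hdet₀ hc)) =
      φ₁ (Additive.ofMul (mk0 N a b c d hdet hc)) := by
    rw [← hγ₀, ofMul_mul, map_add, apply_upZ φ₁ hU, zero_add]
  -- γ̂
  have hdeth : t * (q * (q * d)) - b₀ * c = 1 := by linear_combination hdet₀
  set γh : Gamma0 N := mk0 N t b₀ c (q * (q * d)) hdeth hc with hγh
  -- γ₁ = w1i * γ₀, with lower-left entry q (q (-N t + c))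
  have hdet₁ : (u * (q * (q * t)) + v * c) * (-N * b₀ + q * q * d) -
      (u * b₀ + v * d) * (q * (q * (-N * t + c))) = 1 := by
    have h1 := det_eq (w1i * mk0 N (q * (q * t)) b₀ c d hdet₀ hc)
    simp only [w1i, mul_00, mul_01, mul_10, mul_11, mk0_00, mk0_01, mk0_10, mk0_11] at h1
    linear_combination h1
  have hc₁ : (N : ℤ) ∣ -N * t + c := by
    exact dvd_add (Dvd.intro _ (by ring : (N : ℤ) * (-t) = -N * t)) hc
  have hγ₁ : w1i * mk0 N (q * (q * t)) b₀ c d hdet₀ hc =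
      mk0 N (u * (q * (q * t)) + v * c) (u * b₀ + v * d) (q * (q * (-N * t + c)))
        (-N * b₀ + q * q * d) hdet₁ (Dvd.dvd.mul_left (Dvd.dvd.mul_left hc₁ _) _) := by
    apply gamma0_ext <;>
      simp only [w1i, mul_00, mul_01, mul_10, mul_11, mk0_00, mk0_01, mk0_10, mk0_11] <;> ring_nf
  have hT := apply_eq_of_sq hq hqN hker (u * (q * (q * t)) + v * c) (u * b₀ + v * d)
    (-N * t + c) (-N * b₀ + q * q * d) hc₁ hdet₁
  -- γ̂ = w1h * γ̃₁
  have hγh' : γh = w1h * mk0 N (u * (q * (q * t)) + v * c) (q * (q * (u * b₀ + v * d)))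
      (-N * t + c) (-N * b₀ + q * q * d) (by linear_combination hdet₁) hc₁ := by
    apply gamma0_ext <;>
      simp only [γh, w1h, mul_00, mul_01, mul_10, mul_11, mk0_00, mk0_01, mk0_10, mk0_11]
    · linear_combination (-t) * huv
    · linear_combination (-b₀) * huv
    · linear_combination (-c) * huv
    · linear_combination (-(q * q * d)) * huv
  have hφh : φ₁ (Additive.ofMul γh) = φ₁ (Additive.ofMul (mk0 N a b c d hdet hc)) +
      (φ₁ (Additive.ofMul w1h) - φ₁ (Additive.ofMul w1)) := by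
    rw [hγh', ofMul_mul, map_add, ← hT, ← hγ₁, ofMul_mul, map_add, hwφ, hφ₀]
    abel
  rw [← hφh]
  apply apply_eq_of_row φ₁ hU
  · simp only [γh, mk0_10]; exact h10
  · simp only [γh, mk0_10, mk0_11]
    have : (q : ℤ) ^ 2 * d = q * (q * d) := by ring
    rw [← this]; exact h11

/-- **US**, iterated. -/
theorem unit_sym_pow (hq : q.Prime) (hqN : ¬ q ∣ N) {φ₁ φ₂ : Additive (Gamma0 N) →+ A}
    (hker : r₁ N q φ₁ + r₂ N q φ₂ = 0) (hU : φ₁ (Additive.ofMul (upU N)) = 0) :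
    ∃ κ : A, ∀ (k : ℕ) (γ γ' : Gamma0 N), (γ' : SL(2, ℤ)) 1 0 = (γ : SL(2, ℤ)) 1 0 →
      ¬ (q : ℤ) ∣ (γ : SL(2, ℤ)) 1 0 →
      (γ' : SL(2, ℤ)) 1 1 ≡ (q : ℤ) ^ (2 * k) * (γ : SL(2, ℤ)) 1 1 [ZMOD (γ : SL(2, ℤ)) 1 0] →
      φ₁ (Additive.ofMul γ') = φ₁ (Additive.ofMul γ) + k • κ := by
  obtain ⟨κ, hκ⟩ := unit_sym hq hqN hker hU
  refine ⟨κ, ?_⟩
  intro k
  induction k with
  | zero =>
    intro γ γ' h10 _ h11
    rw [zero_smul, add_zero]
    exact apply_eq_of_row φ₁ hU γ γ' h10 (by simpa using h11)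
  | succ k ih =>
    intro γ γ' h10 hqc h11
    -- intermediate element with bottom row (c, q^(2k) d)
    have hcop : IsCoprime ((γ : SL(2, ℤ)) 1 0) ((q : ℤ) ^ (2 * k) * (γ : SL(2, ℤ)) 1 1) :=
      IsCoprime.mul_right ((isCoprime_of_prime_not_dvd hq hqc).pow_right) (isCoprime_row γ)
    obtain ⟨γ'', h10'', h11''⟩ := exists_row hcop (dvd_10 γ)
    have e1 := ih γ γ'' h10'' hqc (by rw [h11''])
    have e2 := hκ γ'' γ' (by rw [h10, h10'']) (by rw [h10'']; exact hqc)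
      (by
        rw [h10'', h11'']
        have : (q : ℤ) ^ (2 * (k + 1)) * (γ : SL(2, ℤ)) 1 1 =
            (q : ℤ) ^ 2 * ((q : ℤ) ^ (2 * k) * (γ : SL(2, ℤ)) 1 1) := by ring
        rw [← this]; exact h11)
    rw [e2, e1, succ_nsmul, add_assoc]

end Fermat.Agent.S41.H161
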