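import Mathlib
import Fermat.Agent.S41.H161.IK.US
import Fermat.Agent.S41.H161.IK.Dist
import Fermat.Agent.S41.H161.IK.Avg

/-!
# S41 / IK (helper161): the main computation

`(T_l φ₁)(γ) = 2 φ₁(γ)` for `(φ₁, φ₂)` in the kernel of `r₁ + r₂`, `γ` with lower-left entry `c`
prime to `q`, `l ≡ 1 mod c`, and `p ∣ ord_l(q^{2k})` for some `k` with `q^{2k} ≡ 1 mod c`.
-/

set_option autoImplicit false

namespace Fermat.Agent.S41.H161

open CongruenceSubgroup Matrix.SpecialLinearGroup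
open Fermat.Agent.S29.H642 Fermat.Agent.S41.Spec Fermat.Agent.S41.H281
open scoped MatrixGroups

variable {N q p : ℕ} {A : Type*} [AddCommGroup A]

theorem ik_apply (hq : q.Prime) (hqN : ¬ q ∣ N) (hp : p.Prime) (hp2 : p ≠ 2)
    (hA : ∀ a : A, p • a = 0) {φ₁ φ₂ : Additive (Gamma0 N) →+ A}
    (hker : r₁ N q φ₁ + r₂ N q φ₂ = 0) (hU : φ₁ (Additive.ofMul (upU N)) = 0)
    (γ : Gamma0 N) (hqc : ¬ (q : ℤ) ∣ (γ : SL(2, ℤ)) 1 0)
    (l : ℕ) [Fact l.Prime] (hl : ¬ l ∣ N) (hlq : l ≠ q)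
    (hl1 : (l : ℤ) ≡ 1 [ZMOD (γ : SL(2, ℤ)) 1 0])
    (hk : ∃ k : ℕ, (q : ℤ) ^ (2 * k) ≡ 1 [ZMOD (γ : SL(2, ℤ)) 1 0] ∧
      p ∣ orderOf ((q : ZMod l) ^ (2 * k))) :
    heckeTransfer hl φ₁ (Additive.ofMul γ) = (2 : ℕ) • φ₁ (Additive.ofMul γ) := by
  classical
  have hlp : l.Prime := Fact.out
  have hl0 : (l : ℤ) ≠ 0 := l_ne_zero_int
  set c : ℤ := (γ : SL(2, ℤ)) 1 0 with hc
  set d : ℤ := (γ : SL(2, ℤ)) 1 1 with hd
  have hcd : IsCoprime c d := isCoprime_row γ
  -- `l ∤ c`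
  have hlc : ¬ (l : ℤ) ∣ c := by
    intro h
    have h1 : c ∣ 1 - (l : ℤ) := Int.modEq_iff_dvd.mp hl1
    have h2 : (l : ℤ) ∣ 1 := by
      have := dvd_add (dvd_trans h h1) (dvd_refl (l : ℤ))
      simpa using this
    have h3 : (l : ℤ) = 1 ∨ (l : ℤ) = -1 := Int.isUnit_iff.mp (isUnit_of_dvd_one h2)
    rcases h3 with h3 | h3
    · exact hlp.one_lt.ne' (by exact_mod_cast h3)
    · have : (0 : ℤ) ≤ l := Int.natCast_nonneg _
      omega
  have hcl : ((c : ℤ) : ZMod l) ≠ 0 := by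
    rwa [Ne, ZMod.intCast_zmod_eq_zero_iff_dvd]
  have hcoplc : (l : ℤ).natAbs.Coprime c.natAbs := by
    rw [Int.natAbs_natCast]
    exact (Nat.Prime.coprime_iff_not_dvd hlp).mpr (fun h => hlc (Int.natCast_dvd.mpr h))
  obtain ⟨κ, hκ⟩ := unit_sym_pow hq hqN hker hU
  obtain ⟨k, hk1, hk2⟩ := hk
  -- the unit `q mod l`
  have hql : ((q : ℕ) : ZMod l) ≠ 0 := by
    rw [Ne, ZMod.natCast_eq_zero_iff]
    intro h
    exact hlq ((Nat.prime_dvd_prime_iff_eq hlp hq).mp h)
  let qu : (ZMod l)ˣ := Units.mk0 (q : ZMod l) hql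
  set n := orderOf (qu ^ (2 * k)) with hn
  have hn' : orderOf ((q : ZMod l) ^ (2 * k)) = n := by
    rw [hn, ← orderOf_units]
    simp [qu]
  have hpn : p ∣ n := hn' ▸ hk2
  have hn0 : 0 < n := orderOf_pos _
  set K := k * (n / p) with hK
  let v : (ZMod l)ˣ := (qu ^ (2 * k)) ^ (n / p)
  have hv : orderOf v = p := by
    rw [orderOf_pow_of_dvd (Nat.div_pos (Nat.le_of_dvd hn0 hpn) hp.pos).ne'
      (Nat.div_dvd_of_dvd hpn)]
    exact Nat.div_div_self hpn hn0.ne'
  have hvq : ((v : (ZMod l)ˣ) : ZMod l) = (q : ZMod l) ^ (2 * K) := by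
    simp only [v, qu, hK, Units.val_pow_eq_pow_val, Units.val_mk0]
    rw [← pow_mul, mul_assoc]
  have hqK : (q : ℤ) ^ (2 * K) ≡ 1 [ZMOD c] := by
    have := hk1.pow (n / p)
    rw [one_pow, ← pow_mul] at this
    rwa [hK, ← mul_assoc]
  have hqlc : ¬ (q : ℤ) ∣ (l : ℤ) * c := by
    intro h
    rcases (Nat.prime_iff_prime_int.mp hq).dvd_mul.mp h with h | h
    · have : q ∣ l := by exact_mod_cast h
      exact hlq ((Nat.prime_dvd_prime_iff_eq hq hlp).mp this).symm
    · exact hqc h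
  -- notation
  set π := hPerm l (γ : SL(2, ℤ)) with hπ
  set f : OnePoint (ZMod l) → A := fun x => φ₁ (Additive.ofMul (hElt hl γ x)) with hf
  rw [heckeTransfer_apply]
  show ∑ x, f x = _
  have hπinf : π OnePoint.infty ≠ OnePoint.infty := hPerm_infty_ne_infty hl γ hlc
  set xinf := π.symm OnePoint.infty with hxinfdef
  have hxinf : xinf ≠ OnePoint.infty := by
    intro h
    apply hπinf
    have h1 : π xinf = OnePoint.infty := by rw [hxinfdef, Equiv.apply_symm_apply]
    rw [h] at h1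
    exact h1
  -- the two special terms
  have hfinf : f OnePoint.infty = φ₁ (Additive.ofMul γ) := by
    obtain ⟨j', hj'⟩ := OnePoint.ne_infty_iff_exists.mp hπinf
    obtain ⟨h10, h11⟩ := hElt_row_infty_coe hl γ j' hj'.symm
    apply apply_eq_of_row φ₁ hU _ _ h10
    rw [← hc, ← hd]
    rw [← hc, ← hd] at h11
    have e1 : ((hElt hl γ OnePoint.infty : Gamma0 N) : SL(2, ℤ)) 1 1 * l ≡ d [ZMOD c] := by
      rw [h11, Int.modEq_iff_dvd]
      exact ⟨(j'.val : ℤ), by ring⟩
    have e2 : ((hElt hl γ OnePoint.infty : Gamma0 N) : SL(2, ℤ)) 1 1 * l ≡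
        ((hElt hl γ OnePoint.infty : Gamma0 N) : SL(2, ℤ)) 1 1 * 1 [ZMOD c] :=
      Int.ModEq.mul_left _ hl1
    rw [mul_one] at e2
    exact e2.symm.trans e1
  have hfxinf : f xinf = φ₁ (Additive.ofMul γ) := by
    obtain ⟨j, hj⟩ := OnePoint.ne_infty_iff_exists.mp hxinf
    have hπj : π (j : OnePoint (ZMod l)) = OnePoint.infty := by
      rw [hj, hxinfdef, Equiv.apply_symm_apply]
    obtain ⟨h10, h11⟩ := hElt_row_coe_infty hl γ j hπj
    show φ₁ (Additive.ofMul (hElt hl γ xinf)) = _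
    rw [← hj]
    apply apply_eq_of_row φ₁ hU _ _ h10
    rw [← hc, ← hd, h11]
    have := Int.ModEq.mul_right d hl1
    rwa [one_mul] at this
  -- the generic terms
  let jfun : (ZMod l)ˣ → ZMod l := fun e => (((d : ℤ) : ZMod l) - e) * ((c : ℤ) : ZMod l)⁻¹
  let xfun : (ZMod l)ˣ → OnePoint (ZMod l) := fun e => π.symm ((jfun e : ZMod l) : OnePoint (ZMod l))
  have hπx : ∀ e, π (xfun e) = ((jfun e : ZMod l) : OnePoint (ZMod l)) := fun e => by
    simp only [xfun, Equiv.apply_symm_apply]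
  have hcast : ∀ e : (ZMod l)ˣ, (((d - c * ((jfun e).val : ℤ) : ℤ)) : ZMod l) = e := by
    intro e
    push_cast
    rw [ZMod.natCast_zmod_val]
    simp only [jfun]
    field_simp
    ring
  have hxne : ∀ e, xfun e ≠ OnePoint.infty := by
    intro e h
    have h1 : π OnePoint.infty = ((jfun e : ZMod l) : OnePoint (ZMod l)) := by
      rw [← h]; exact hπx e
    obtain ⟨_, h11⟩ := hElt_row_infty_coe hl γ (jfun e) h1
    rw [← hc, ← hd] at h11
    have h2 : ((((hElt hl γ OnePoint.infty : Gamma0 N) : SL(2, ℤ)) 1 1 * (l : ℤ) : ℤ) : ZMod l) =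
        (((d - c * ((jfun e).val : ℤ) : ℤ)) : ZMod l) := congrArg Int.cast h11
    rw [hcast e] at h2
    push_cast at h2
    rw [ZMod.natCast_self, mul_zero] at h2
    exact e.ne_zero h2.symm
  have hrow : ∀ e, ((hElt hl γ (xfun e) : Gamma0 N) : SL(2, ℤ)) 1 0 = l * c ∧
      ((hElt hl γ (xfun e) : Gamma0 N) : SL(2, ℤ)) 1 1 = d - c * ((jfun e).val : ℤ) := by
    intro e
    obtain ⟨j, hj⟩ := OnePoint.ne_infty_iff_exists.mp (hxne e)
    have := hElt_row_coe_coe hl γ j (jfun e) (by rw [hj]; exact hπx e)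
    rw [hj] at this
    exact this
  have hgen : ∑ x ∈ Finset.univ.filter (fun x => x ≠ OnePoint.infty ∧ π x ≠ OnePoint.infty), f x =
      ∑ e : (ZMod l)ˣ, f (xfun e) := by
    symm
    refine Finset.sum_bij (fun e _ => xfun e) ?_ ?_ ?_ ?_
    · intro e _
      simp only [Finset.mem_filter, Finset.mem_univ, true_and]
      exact ⟨hxne e, by rw [hπx]; exact OnePoint.coe_ne_infty _⟩
    · intro e₁ _ e₂ _ h
      have h1 : ((jfun e₁ : ZMod l) : OnePoint (ZMod l)) = ((jfun e₂ : ZMod l) : OnePoint (ZMod l)) := by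
        rw [← hπx, ← hπx, h]
      have h2 : jfun e₁ = jfun e₂ := OnePoint.coe_injective h1
      have h3 : (((d : ℤ) : ZMod l) - e₁) = (((d : ℤ) : ZMod l) - e₂) :=
        mul_right_cancel₀ (inv_ne_zero hcl) h2
      exact Units.ext (by linear_combination -h3)
    · intro x hx
      simp only [Finset.mem_filter, Finset.mem_univ, true_and] at hx
      obtain ⟨j, hj⟩ := OnePoint.ne_infty_iff_exists.mp hx.1
      obtain ⟨j', hj'⟩ := OnePoint.ne_infty_iff_exists.mp hx.2
      obtain ⟨h10, h11⟩ := hElt_row_coe_coe hl γ j j' (by rw [hj, hj'])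
      rw [← hc] at h10
      rw [← hc, ← hd] at h11
      -- e = d - c j' is nonzero mod l
      have hcop := isCoprime_row (hElt hl γ (j : OnePoint (ZMod l)))
      rw [h10, h11] at hcop
      have hne : (((d : ℤ) : ZMod l) - ((c : ℤ) : ZMod l) * j') ≠ 0 := by
        intro h0
        have h1 : (((d - c * (j'.val : ℤ) : ℤ)) : ZMod l) = 0 := by
          push_cast
          rw [ZMod.natCast_zmod_val]
          exact h0
        rw [ZMod.intCast_zmod_eq_zero_iff_dvd] at h1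
        have h2 : IsCoprime (l : ℤ) (d - c * (j'.val : ℤ)) := hcop.of_mul_left_left
        have h3 : IsUnit (l : ℤ) := h2.isUnit_of_dvd' (dvd_refl _) h1
        have h4 : (l : ℤ) = 1 ∨ (l : ℤ) = -1 := Int.isUnit_iff.mp h3
        rcases h4 with h4 | h4
        · exact hlp.one_lt.ne' (by exact_mod_cast h4)
        · have : (0 : ℤ) ≤ l := Int.natCast_nonneg _
          omega
      refine ⟨Units.mk0 _ hne, Finset.mem_univ _, ?_⟩
      have hj2 : jfun (Units.mk0 _ hne) = j' := by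
        simp only [jfun, Units.val_mk0]
        field_simp
        ring
      show π.symm ((jfun (Units.mk0 _ hne) : ZMod l) : OnePoint (ZMod l)) = x
      rw [hj2, hj', Equiv.symm_apply_apply]
    · intro e _
      rfl
  have hshift : ∀ e : (ZMod l)ˣ, f (xfun (v * e)) = f (xfun e) + K • κ := by
    intro e
    obtain ⟨a10, a11⟩ := hrow e
    obtain ⟨b10, b11⟩ := hrow (v * e)
    apply hκ K _ _ (by rw [a10, b10]) (by rw [a10]; exact hqlc)
    rw [a10, a11, b11]
    apply (Int.modEq_and_modEq_iff_modEq_mul hcoplc).mp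
    constructor
    · rw [← ZMod.intCast_eq_intCast_iff]
      rw [hcast (v * e)]
      push_cast
      have := hcast e
      push_cast at this
      rw [this, hvq]
    · have e1 : d - c * ((jfun (v * e)).val : ℤ) ≡ d [ZMOD c] := by
        rw [Int.modEq_iff_dvd]
        exact ⟨((jfun (v * e)).val : ℤ), by ring⟩
      have e2 : d - c * ((jfun e).val : ℤ) ≡ d [ZMOD c] := by
        rw [Int.modEq_iff_dvd]
        exact ⟨((jfun e).val : ℤ), by ring⟩
      have e3 := Int.ModEq.mul hqK e2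
      rw [one_mul] at e3
      exact e1.trans e3.symm
  have hzero : ∑ e : (ZMod l)ˣ, f (xfun e) = 0 :=
    sum_eq_zero_of_shift hp hp2 hA v hv (fun e => f (xfun e)) (K • κ) hshift
  -- assemble
  have hsplit := Finset.sum_filter_add_sum_filter_not Finset.univ
    (fun x => x ≠ OnePoint.infty ∧ π x ≠ OnePoint.infty) f
  have hnot : Finset.univ.filter (fun x => ¬ (x ≠ OnePoint.infty ∧ π x ≠ OnePoint.infty)) =
      {OnePoint.infty, xinf} := by
    ext x
    simp only [Finset.mem_filter, Finset.mem_univ, true_and, Finset.mem_insert,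
      Finset.mem_singleton, not_and_or, not_not]
    constructor
    · rintro (h | h)
      · exact Or.inl h
      · exact Or.inr (by rw [hxinfdef, ← h, Equiv.symm_apply_apply])
    · rintro (h | h)
      · exact Or.inl h
      · exact Or.inr (by rw [h, hxinfdef, Equiv.apply_symm_apply])
  rw [← hsplit, hnot, Finset.sum_pair (Ne.symm hxinf), hgen, hzero, hfinf, hfxinf, zero_add, two_nsmul]

end Fermat.Agent.S41.H161
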