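import Mathlib
import Fermat.Agent.S41.H161.IK.Main
import Fermat.Agent.S41.H161.IK.Kum

/-!
# S41 / block IK (helper161): END

* `ik : IKStatement` — Ihara's lemma in Eisenstein form, without amalgam and without CSP;
* `swapStatement : SwapStatement`;
* `kum : KumStatement` (in `Kum.lean`).

Mathematics: `coord/S41-IK.md`.
-/

set_option autoImplicit false

namespace Fermat.Agent.S41.H161

open CongruenceSubgroup Matrix.SpecialLinearGroup
open Fermat.Agent.S29.H642 Fermat.Agent.S41.Spec Fermat.Agent.S41.H281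
open scoped MatrixGroups

universe u

theorem swapStatement : SwapStatement.{u} := by
  intro N q hq hqN A _ φ₁ φ₂ hker
  exact swap hq hqN hker

/-- A nonzero character of `Γ₀(N)` is nonzero on some `γ₀` whose lower-left entry is prime to `q`. -/
theorem exists_ne_zero_not_dvd {N q : ℕ} (hq : q.Prime) (hqN : ¬ q ∣ N) {A : Type*}
    [AddCommGroup A] (φ : Additive (Gamma0 N) →+ A) (hφ : φ ≠ 0) :
    ∃ γ₀ : Gamma0 N, φ (Additive.ofMul γ₀) ≠ 0 ∧ ¬ (q : ℤ) ∣ (γ₀ : SL(2, ℤ)) 1 0 := by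
  have hqN' : ¬ (q : ℤ) ∣ (N : ℤ) := by
    intro h; exact hqN (by exact_mod_cast h)
  obtain ⟨γ', hγ'⟩ : ∃ γ', φ γ' ≠ 0 := by
    by_contra h
    push_neg at h
    exact hφ (AddMonoidHom.ext h)
  obtain ⟨γ, rfl⟩ : ∃ γ : Gamma0 N, Additive.ofMul γ = γ' := ⟨Additive.toMul γ', rfl⟩
  by_cases hc : (q : ℤ) ∣ (γ : SL(2, ℤ)) 1 0
  · -- use `E = [[1, 0], [N, 1]]`
    let E : Gamma0 N := mk0 N 1 0 N 1 (by ring) (dvd_refl _)
    by_cases hE : φ (Additive.ofMul E) = 0
    · refine ⟨γ * E, ?_, ?_⟩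
      · rw [ofMul_mul, map_add, hE, add_zero]; exact hγ'
      · rw [mul_10]
        simp only [E, mk0_00, mk0_10, mul_one]
        intro h
        have h1 : (q : ℤ) ∣ (γ : SL(2, ℤ)) 1 1 * N := (dvd_add_right hc).mp h
        rcases (Nat.prime_iff_prime_int.mp hq).dvd_mul.mp h1 with h2 | h2
        · -- q ∣ c and q ∣ d contradicts coprimality
          have hcop := isCoprime_row γ
          have h3 : IsUnit (q : ℤ) := hcop.isUnit_of_dvd' hc h2
          exact (Nat.prime_iff_prime_int.mp hq).not_unit h3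
        · exact hqN' h2
    · exact ⟨E, hE, by simpa [E] using hqN'⟩
  · exact ⟨γ, hγ', hc⟩

theorem ik : IKStatement.{u} := by
  intro N q p hqF hpF hp2 hqN _ A _ hA φ₁ φ₂ hker hU hne
  have hq : q.Prime := Fact.out
  have hp : p.Prime := Fact.out
  obtain ⟨γ₀, h1, h2⟩ := exists_ne_zero_not_dvd hq hqN φ₁ hne
  refine ⟨γ₀, h1, ?_, h2, ?_⟩
  · intro h0
    apply h2
    rw [h0]
    exact dvd_zero _
  · intro l _ hl hlq hl1 hk
    exact ik_apply hq hqN hp hp2 hA hker hU γ₀ h2 l hl hlq hl1 hk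

end Fermat.Agent.S41.H161
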