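import Mathlib
import Fermat.Agent.S41.Spec.Core
import Fermat.Agent.S41.H161.IK.IK
import Fermat.Agent.S41.H701.NEPrime

/-!
# S41 / block IH: `IharaEigenStatement` via the route IK (helper161)

`iharaEigen_h161 : Spec.IharaEigenStatement`, UNCONDITIONAL, from

* `ik : IKStatement` (Ihara's lemma in Eisenstein form; no amalgam, no congruence subgroup
  property),
* `swap` (the kernel of `r₁ + r₂` is stable under exchanging the components),
* `kum` (Kummer criterion for `p ∣ ord_l(q^M)`),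
* `Fermat.Agent.S41.H701.nePrime_h701` (block NE': non-Eisenstein primes with Kummer condition).

Mathematics: `coord/S41-IK.md` §5.
-/

set_option autoImplicit false

namespace Fermat.Agent.S41.H161

open CongruenceSubgroup Matrix.SpecialLinearGroup
open Fermat.Agent.S29.H642 Fermat.Agent.S41.Spec
open WeierstrassCurve WeierstrassCurve.Affine WeierstrassCurve.Affine.Point
open scoped MatrixGroups

/-- A cuspidal class vanishes on `U = [[1, 1], [0, 1]]`. -/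
theorem isCuspidal_upU {N : ℕ} {A : Type*} [AddCommGroup A] {φ : Additive (Gamma0 N) →+ A}
    (hφ : IsCuspidal φ) : φ (Additive.ofMul (upU N)) = 0 := by
  apply hφ.1
  simp [upU, Matrix.trace_fin_two_of]

/-- One half of `IharaEigenStatement`: the first component of an eigen-pair in the kernel of
`r₁ + r₂` vanishes. -/
theorem iharaEigen_fst (E : WeierstrassCurve ℚ) [E.IsElliptic] (W : WeierstrassCurve ℤ)
    (hW : W.IsIntegralModelOf E) (p N q : ℕ) (hp : p.Prime) (hp2 : p ≠ 2) (hN : N ≠ 0)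
    (hq : q.Prime) (hqN : ¬ q ∣ N)
    (hirr : GaloisRepIsIrreducible (K := AlgebraicClosure ℚ) ℚ E p)
    (φ₁ φ₂ : Additive (Gamma0 N) →+ ZMod p) (hc₁ : IsCuspidal φ₁)
    (hker : r₁ N q φ₁ + r₂ N q φ₂ = 0)
    (heig : ∀ (l : ℕ) [Fact l.Prime] (hl : ¬ l ∣ N), ¬ l ∣ N * q → W.IsGoodPrimeFor l → l ≠ p →
      heckeTransfer hl φ₁ = ((W.apOfModel l : ℤ) : ZMod p) • φ₁) :
    φ₁ = 0 := by
  by_contra hne
  haveI hpF : Fact p.Prime := ⟨hp⟩
  haveI hqF : Fact q.Prime := ⟨hq⟩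
  have hA : ∀ a : ZMod p, p • a = 0 := by
    intro a
    rw [nsmul_eq_mul, ZMod.natCast_self, zero_mul]
  obtain ⟨γ₀, hγ₀, hc0, hqc, H⟩ :=
    ik.{0} N q p hp2 hqN (Nat.pos_of_ne_zero hN) (ZMod p) hA φ₁ φ₂ hker (isCuspidal_upU hc₁) hne
  -- the modulus
  set c : ℤ := (γ₀ : SL(2, ℤ)) 1 0 with hc
  have hcn : 0 < c.natAbs := Int.natAbs_pos.mpr hc0
  set k : ℕ := Nat.totient c.natAbs with hk
  have hk0 : 0 < k := Nat.totient_pos.mpr hcn
  have hcop : Nat.Coprime q c.natAbs := by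
    rw [Nat.Prime.coprime_iff_not_dvd hq]
    intro h
    exact hqc (Int.natCast_dvd.mpr h)
  have hqk : (q : ℤ) ^ (2 * k) ≡ 1 [ZMOD c] := by
    have h1 : q ^ k ≡ 1 [MOD c.natAbs] := Nat.ModEq.pow_totient hcop
    have h2 : (q ^ k) ^ 2 ≡ 1 ^ 2 [MOD c.natAbs] := h1.pow 2
    have h3 : (((q ^ k) ^ 2 : ℕ) : ℤ) ≡ ((1 ^ 2 : ℕ) : ℤ) [ZMOD (c.natAbs : ℤ)] :=
      Int.natCast_modEq_iff.mpr h2
    have h4 : (c.natAbs : ℤ) ∣ ((1 ^ 2 : ℕ) : ℤ) - (((q ^ k) ^ 2 : ℕ) : ℤ) :=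
      Int.ModEq.dvd h3
    rw [Int.natAbs_dvd] at h4
    rw [Int.modEq_iff_dvd]
    have e : (1 : ℤ) - (q : ℤ) ^ (2 * k) = ((1 ^ 2 : ℕ) : ℤ) - (((q ^ k) ^ 2 : ℕ) : ℤ) := by
      push_cast
      ring
    rw [e]
    exact h4
  set M : ℕ := 2 * k with hM
  have hM0 : M ≠ 0 := by omega
  set e : ℕ := padicValNat p M with he
  have hMe : ¬ p ^ (e + 1) ∣ M := pow_succ_padicValNat_not_dvd hM0
  set m : ℕ := c.natAbs * p ^ (e + 1) with hm
  have hm0 : 0 < m := Nat.mul_pos hcn (pow_pos hp.pos _)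
  obtain ⟨l, hl, hlS, hlp, hlq, hgood, hlm, hlp1, hnE, -, hpow⟩ :=
    Fermat.Agent.S41.H701.nePrime_h701 E W hW p hp hp2 hirr q hq m hm0 N.primeFactors
  haveI hlF : Fact l.Prime := ⟨hl⟩
  have hlN : ¬ l ∣ N := by
    intro h
    exact hlS (Nat.mem_primeFactors.mpr ⟨hl, h, hN⟩)
  have hlNq : ¬ l ∣ N * q := by
    intro h
    rcases (Nat.Prime.dvd_mul hl).mp h with h | h
    · exact hlN h
    · exact hlq ((Nat.prime_dvd_prime_iff_eq hl hq).mp h)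
  have hlc : (l : ℤ) ≡ 1 [ZMOD c] := by
    have h1 : l ≡ 1 [MOD c.natAbs] := hlm.of_dvd (Dvd.intro _ rfl)
    have h3 : ((l : ℕ) : ℤ) ≡ ((1 : ℕ) : ℤ) [ZMOD (c.natAbs : ℤ)] :=
      Int.natCast_modEq_iff.mpr h1
    have h4 : (c.natAbs : ℤ) ∣ ((1 : ℕ) : ℤ) - ((l : ℕ) : ℤ) := Int.ModEq.dvd h3
    rw [Int.natAbs_dvd] at h4
    rw [Int.modEq_iff_dvd]
    simpa using h4
  have hl1 : l ≡ 1 [MOD p ^ (e + 1)] := hlm.of_dvd (Dvd.intro_left _ rfl)
  have hord : p ∣ orderOf ((q : ZMod l) ^ M) :=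
    kum l p q M e hl hp hl1 hMe (by rintro ⟨x, hx⟩; exact hpow x hx)
  have h2 := H l hlN hlq hlc ⟨k, hqk, hord⟩
  rw [heig l hlN hlNq hgood hlp] at h2
  -- `(a_l - 2) φ₁(γ₀) = 0`
  have h3 : (((W.apOfModel l : ℤ) : ZMod p) - 2) * φ₁ (Additive.ofMul γ₀) = 0 := by
    have h4 : ((W.apOfModel l : ℤ) : ZMod p) * φ₁ (Additive.ofMul γ₀)
        = 2 * φ₁ (Additive.ofMul γ₀) := by
      simpa [AddMonoidHom.smul_apply, smul_eq_mul, nsmul_eq_mul] using h2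
    rw [sub_mul, h4, sub_self]
  have h5 : ((W.apOfModel l : ℤ) : ZMod p) - 2 = 0 := by
    rcases mul_eq_zero.mp h3 with h | h
    · exact h
    · exact absurd h hγ₀
  apply hnE
  rw [← ZMod.intCast_zmod_eq_zero_iff_dvd]
  have hl1' : ((l : ℕ) : ZMod p) = 1 := by
    have := (ZMod.natCast_eq_natCast_iff l 1 p).mpr hlp1
    simpa using this
  push_cast
  rw [hl1']
  linear_combination h5

/-- **Block IH**: `IharaEigenStatement`, unconditionally, by the route IK. -/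
theorem iharaEigen_h161 : IharaEigenStatement := by
  intro E _ W hW p N q hp hp2 hN hq hqN _ hirr φ₁ φ₂ hc₁ hc₂ hker heig
  refine ⟨iharaEigen_fst E W hW p N q hp hp2 hN hq hqN hirr φ₁ φ₂ hc₁ hker
    (fun l _ hl hl' hg hlp => (heig l hl hl' hg hlp).1),
    iharaEigen_fst E W hW p N q hp hp2 hN hq hqN hirr φ₂ φ₁ hc₂ (swap hq hqN hker)
    (fun l _ hl hl' hg hlp => (heig l hl hl' hg hlp).2)⟩

end Fermat.Agent.S41.H161
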